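import Fermat.Agent.EichlerPeriods.Periods

/-!
# The period lattice is stable under operators given by integral upper triangular matrices

An integral upper triangular matrix times an element of `SL(2, ℤ)` is an element of `SL(2, ℤ)` times
another such matrix (`exists_decomp`); hence the transpose of an operator given by a finite family
of them preserves the period lattice (`comp_mem_periodLattice`).
-/

set_option autoImplicit false

noncomputable section

namespace Fermat.Agent.EichlerPeriods

open Filter Topology Polynomial UpperHalfPlane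
open scoped MatrixGroups ModularForm Manifold

variable {N : ℕ} {n : ℕ} [NeZero N]

/-- `z ↦ (a z + b) / d`. -/
def triMap (a b d : ℤ) (z : ℂ) : ℂ := ((a : ℂ) * z + b) / d

theorem triMap_mem_uhpSet {a b d : ℤ} (ha : 0 < a) (hd : 0 < d) {z : ℂ} (hz : z ∈ uhpSet) :
    triMap a b d z ∈ uhpSet := by
  have ha' : (0 : ℝ) < a := by exact_mod_cast ha
  have hd' : (0 : ℝ) < d := by exact_mod_cast hd
  rw [mem_uhpSet] at hz ⊢
  simp [triMap, Complex.div_im]
  positivity

theorem vertZero_comp_triMap {H : ℂ → ℂ} (hH : VertZero H) {a b d : ℤ} (ha : 0 < a) (hd : 0 < d) :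
    VertZero (fun z ↦ H (triMap a b d z)) := by
  intro x
  have ha' : (0 : ℝ) < a := by exact_mod_cast ha
  have hd' : (0 : ℝ) < d := by exact_mod_cast hd
  refine ((hH (((a : ℝ) * x + b) / d)).comp
    (tendsto_id.const_mul_atTop (div_pos ha' hd'))).congr fun y ↦ ?_
  simp only [Function.comp_apply, id, triMap]
  congr 1
  push_cast
  ring

/-- An integral upper triangular matrix times `g ∈ SL₂(ℤ)` is `γ β` with `γ ∈ SL₂(ℤ)` and `β`
upper triangular. -/
theorem exists_decomp {a b d : ℤ} (ha : 0 < a) (hd : 0 < d) (g : SL(2, ℤ)) :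
    ∃ (γ : SL(2, ℤ)) (a' b' d' : ℤ), 0 < a' ∧ 0 < d' ∧
      ∀ z ∈ uhpSet, triMap a b d (mob g z) = mob γ (triMap a' b' d' z) := by
  set u := a * g 0 0 + b * g 1 0 with hu
  set v := d * g 1 0 with hv
  set r := a * g 0 1 + b * g 1 1 with hr
  set s := d * g 1 1 with hs
  have hdet : g 0 0 * g 1 1 - g 0 1 * g 1 0 = 1 := by
    have := g.det_coe
    rwa [Matrix.det_fin_two] at this
  have huv : u * s - r * v = a * d := by
    rw [hu, hv, hr, hs]; linear_combination (a * d) * hdet
  set t : ℤ := (Int.gcd u v : ℤ) with ht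
  have ht0 : 0 < t := by
    rw [ht]
    refine Int.natCast_pos.mpr (Nat.pos_of_ne_zero fun h0 ↦ ?_)
    obtain ⟨h1, h2⟩ := Int.gcd_eq_zero_iff.mp h0
    rw [h1, h2] at huv
    nlinarith [mul_pos ha hd]
  obtain ⟨u', hu'⟩ : t ∣ u := Int.gcd_dvd_left ..
  obtain ⟨v', hv'⟩ : t ∣ v := Int.gcd_dvd_right ..
  have hbez := Int.gcd_eq_gcd_ab u v
  set x := Int.gcdA u v
  set y := Int.gcdB u v
  have h1 : u' * x + v' * y = 1 :=
    mul_left_cancel₀ ht0.ne' (show t * (u' * x + v' * y) = t * 1 by
      rw [mul_one]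
      conv_rhs => rw [ht, hbez, hu', hv']
      ring)
  refine ⟨⟨!![u', -y; v', x], ?_⟩, t, x * r + y * s, -v' * r + u' * s, ht0, ?_, fun z hz ↦ ?_⟩
  · rw [Matrix.det_fin_two_of]; linarith
  · have : t * (-v' * r + u' * s) = a * d := by
      rw [← huv, hu', hv']; ring
    exact pos_of_mul_pos_right (by rw [this]; positivity) ht0.le
  · have hd0 : (d : ℂ) ≠ 0 := by exact_mod_cast hd.ne'
    have hj := jFac_ne_zero g hz
    simp only [jFac] at hj
    set d' := -v' * r + u' * s with hd'
    have hd'0 : (d' : ℂ) ≠ 0 := by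
      have : t * d' = a * d := by
        rw [hd', ← huv, hu', hv']; ring
      have : d' ≠ 0 := fun h0 ↦ by rw [h0, mul_zero] at this; nlinarith [mul_pos ha hd]
      exact_mod_cast this
    have key1 : u' * (x * r + y * s) + -y * d' = r := by rw [hd']; linear_combination r * h1
    have key2 : v' * (x * r + y * s) + x * d' = s := by rw [hd']; linear_combination s * h1
    have lhs : triMap a b d (mob g z) = ((u : ℂ) * z + r) / ((v : ℂ) * z + s) := by
      simp only [triMap, mob, hu, hv, hr, hs]
      push_cast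
      rw [mul_div_assoc', div_add' _ _ _ hj, div_div]
      congr 1 <;> ring
    have rhs : ∀ B : ℤ, mob ⟨!![u', -y; v', x], by rw [Matrix.det_fin_two_of]; linarith⟩
        (triMap t B d' z) = (((u' * t : ℤ) : ℂ) * z + ((u' * B + -y * d' : ℤ) : ℂ)) /
          (((v' * t : ℤ) : ℂ) * z + ((v' * B + x * d' : ℤ) : ℂ)) := by
      intro B
      simp only [triMap, mob]
      push_cast
      rw [mul_div_assoc', mul_div_assoc', div_add' _ _ _ hd'0, div_add' _ _ _ hd'0,
        div_div_div_cancel_right₀ hd'0]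
      simp
      ring
    rw [lhs, rhs, key1, key2, mul_comm u', mul_comm v', ← hu', ← hv']

theorem hasDerivAt_triMap (a b d : ℤ) (z : ℂ) : HasDerivAt (triMap a b d) ((a : ℂ) / d) z := by
  simpa using! (((hasDerivAt_id z).const_mul (a : ℂ)).add_const (b : ℂ)).div_const (d : ℂ)

/-- If `E` is given by a finite family of integral upper triangular matrices, its transpose
preserves the period lattice. -/
theorem comp_mem_periodLattice {ι : Type*} [Fintype ι] (a b d : ι → ℤ) (ha : ∀ i, 0 < a i)
    (hd : ∀ i, 0 < d i)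
    (E : Module.End ℂ (CuspForm (CongruenceSubgroup.Gamma0 N) ((n : ℤ) + 2)))
    (hE : ∀ f, ∀ z ∈ uhpSet, slashC n ⇑(E f) 1 z =
      ∑ i, (a i : ℂ) ^ (n + 1) / (d i : ℂ) * slashC n ⇑f 1 (triMap (a i) (b i) (d i) z))
    {φ : Module.Dual ℂ (CuspForm (CongruenceSubgroup.Gamma0 N) ((n : ℤ) + 2))}
    (hφ : φ ∈ periodLattice N n) : φ ∘ₗ E ∈ periodLattice N n := by
  induction hφ using Submodule.span_induction with
  | mem φ hφ =>
    obtain ⟨g, q, hq, hint, rfl⟩ := hφ
    choose γ a' b' d' ha' hd' hdec using fun i ↦ exists_decomp (b := b i) (ha i) (hd i) g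
    set q' : ι → ℂ[X] := fun i ↦
      actPoly n ((d i : ℤ) : ℂ) ((-b i : ℤ) : ℂ) ((0 : ℤ) : ℂ) ((a i : ℤ) : ℂ) q with hq'
    have hq'd : ∀ i, (q' i).natDegree ≤ n := fun i ↦ natDegree_actPoly_le _ _ _ _ q
    have : periodL N n 1 g q ∘ₗ E = ∑ i, periodL N n 1 (γ i) (q' i) := by
      ext f
      rw [LinearMap.comp_apply, periodL_apply _ _ hq, LinearMap.sum_apply]
      simp only [periodL_apply _ _ (hq'd _)]
      have hprim : ∀ z ∈ uhpSet, polyPrim n (slashC n ⇑(E f) 1) q z =
          ∑ i, polyPrim n (slashC n ⇑f 1) (q' i) (triMap (a i) (b i) (d i) z) := by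
        intro z hz
        refine (polyPrim_unique n (decays_slashC (E f) 1) hq (H := fun w ↦
          ∑ i, polyPrim n (slashC n ⇑f 1) (q' i) (triMap (a i) (b i) (d i) w)) ?_ ?_ hz).symm
        · intro w hw
          convert! HasDerivAt.fun_sum (fun i _ ↦
            (hasDerivAt_polyPrim n (decays_slashC f 1) (hq'd i)
              (triMap_mem_uhpSet (b := b i) (ha i) (hd i) hw)).comp w
              (hasDerivAt_triMap (a i) (b i) (d i) w)) using 1
          rw [hE f w hw, Finset.mul_sum]
          refine Finset.sum_congr rfl fun i _ ↦ ?_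
          have hai : (a i : ℂ) ≠ 0 := by exact_mod_cast (ha i).ne'
          have hdi : (d i : ℂ) ≠ 0 := by exact_mod_cast (hd i).ne'
          rw [hq', eval_actPoly hq _ _ _ _ (by simpa using hai)]
          rw [show (((d i : ℤ) : ℂ) * triMap (a i) (b i) (d i) w + ((-b i : ℤ) : ℂ)) /
            (((0 : ℤ) : ℂ) * triMap (a i) (b i) (d i) w + ((a i : ℤ) : ℂ)) = w by
              simp only [triMap]; push_cast; field_simp; ring]
          push_cast
          ring
        · intro x
          simpa using tendsto_finsetSum Finset.univ fun i _ ↦ vertZero_comp_triMap (b := b i)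
            (polyPrim_vertZero n (decays_slashC f 1) (q' i)) (ha i) (hd i) x
      refine periodVal_eq_of (Ψ := fun z ↦ ∑ i, polyPrim n (slashC n ⇑f (γ i))
        (slPoly n (γ i) (q' i)) (triMap (a' i) (b' i) (d' i) z)) ?_ fun z hz ↦ ?_
      · intro x
        simpa using tendsto_finsetSum Finset.univ fun i _ ↦ vertZero_comp_triMap (b := b' i)
          (polyPrim_vertZero n (decays_slashC f (γ i)) (slPoly n (γ i) (q' i))) (ha' i) (hd' i) x
      · rw [hprim _ (mob_mem_uhpSet g hz), ← Finset.sum_add_distrib]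
        refine Finset.sum_congr rfl fun i _ ↦ ?_
        rw [hdec i z hz,
          periodVal_spec f 1 (γ i) (hq'd i) _ (triMap_mem_uhpSet (ha' i) (hd' i) hz), one_mul]
    rw [this]
    exact Submodule.sum_mem _ fun i _ ↦ Submodule.subset_span
      ⟨γ i, q' i, hq'd i, intPoly_actPoly hint _ _ _ _, rfl⟩
  | zero => simp
  | add φ ψ _ _ h1 h2 =>
    rw [LinearMap.add_comp]
    exact Submodule.add_mem _ h1 h2
  | smul m φ _ h1 =>
    rw [LinearMap.smul_comp]
    exact Submodule.smul_mem _ m h1

end Fermat.Agent.EichlerPeriods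

end
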