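import Mathlib.Algebra.Polynomial.Taylor
import Mathlib.Analysis.Calculus.Deriv.Polynomial
import Mathlib.Analysis.Calculus.MeanValue
import Mathlib.Analysis.Complex.Convex
import Mathlib.Analysis.Complex.HasPrimitives
import Mathlib.Analysis.Complex.UpperHalfPlane.FunctionsBoundedAtInfty
import Mathlib.Analysis.SpecialFunctions.ExpDeriv
import Mathlib.Analysis.SpecificLimits.Basic
import Mathlib.Tactic

/-!
# Primitives on the upper half plane normalised at `i∞`

For a holomorphic function `F` on the upper half plane with exponential decay at `i∞` (uniformly in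
the real part) we construct the primitive tending to zero at `i∞`, which again decays
exponentially. Iterating, and integrating by parts, this gives for each polynomial `q` the primitive
of `q * F` vanishing at `i∞`, with no integrals involved.
-/

set_option autoImplicit false

noncomputable section

namespace Fermat.Agent.EichlerPeriods

open Complex Filter Topology Polynomial

/-- The upper half plane as a subset of `ℂ`. -/
def uhpSet : Set ℂ := {z | 0 < z.im}

/-- Membership in the upper half plane. -/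
@[simp] theorem mem_uhpSet {z : ℂ} : z ∈ uhpSet ↔ 0 < z.im := Iff.rfl

/-- The upper half plane is open. -/
theorem isOpen_uhpSet : IsOpen uhpSet := isOpen_lt continuous_const Complex.continuous_im

theorem convex_uhpSet : Convex ℝ uhpSet := convex_halfSpace_im_gt 0

theorem isPreconnected_uhpSet : IsPreconnected uhpSet := convex_uhpSet.isPreconnected

/-- Holomorphic on the upper half plane, exponentially decaying at `i∞`. -/
structure Decays (F : ℂ → ℂ) : Prop where
  diff : DifferentiableOn ℂ F uhpSet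
  bound : ∃ C c A : ℝ, 0 < c ∧ ∀ z : ℂ, A ≤ z.im → ‖F z‖ ≤ C * Real.exp (-(c * z.im))

/-- `H` is the primitive of `F` on the upper half plane that vanishes at `i∞`. -/
def IsPrim (F H : ℂ → ℂ) : Prop := (∀ z ∈ uhpSet, HasDerivAt H (F z) z) ∧ Decays H

theorem exists_hasDerivAt_uhpSet {F : ℂ → ℂ} (hF : DifferentiableOn ℂ F uhpSet) :
    ∃ H : ℂ → ℂ, ∀ z ∈ uhpSet, HasDerivAt H (F z) z := by
  let w : ℂ → ℂ := fun u ↦ I * (1 + u) / (1 - u)
  have hne : ∀ u ∈ Metric.ball (0 : ℂ) 1, (1 : ℂ) - u ≠ 0 := by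
    intro u hu h
    rw [sub_eq_zero] at h
    simp [← h] at hu
  have him : ∀ u ∈ Metric.ball (0 : ℂ) 1, w u ∈ uhpSet := by
    intro u hu
    have h1 : Complex.normSq u < 1 := by
      rw [Metric.mem_ball, dist_zero_right] at hu
      rw [Complex.normSq_eq_norm_sq]
      nlinarith [norm_nonneg u]
    have h2 : 0 < Complex.normSq (1 - u) := Complex.normSq_pos.mpr (hne u hu)
    have : (w u).im = (1 - Complex.normSq u) / Complex.normSq (1 - u) := by
      simp only [w, Complex.div_im, Complex.mul_re, Complex.mul_im, Complex.I_re, Complex.I_im,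
        Complex.add_re, Complex.add_im, Complex.sub_re, Complex.sub_im, Complex.one_re,
        Complex.one_im, Complex.normSq_apply]
      ring
    rw [mem_uhpSet, this]
    exact div_pos (by linarith) h2
  have hw : ∀ u ∈ Metric.ball (0 : ℂ) 1, HasDerivAt w (2 * I / (1 - u) ^ 2) u := by
    intro u hu
    have := (((hasDerivAt_id u).const_add 1).const_mul I).div ((hasDerivAt_id u).const_sub 1)
      (hne u hu)
    convert! this using 1
    simp only [id]
    ring
  have hd : DifferentiableOn ℂ (fun u ↦ F (w u) * (2 * I / (1 - u) ^ 2)) (Metric.ball 0 1) := by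
    refine (hF.comp (fun u hu ↦ (hw u hu).differentiableAt.differentiableWithinAt) him).mul ?_
    exact (differentiableOn_const _).div ((differentiableOn_id.const_sub 1).pow 2)
      (fun u hu ↦ pow_ne_zero 2 (hne u hu))
  obtain ⟨Q, hQ⟩ := hd.isExactOn_ball
  refine ⟨fun z ↦ Q ((z - I) / (z + I)), fun z hz ↦ ?_⟩
  have hzI : z + I ≠ 0 := by
    intro h
    have := congrArg Complex.im h
    simp at this
    rw [mem_uhpSet] at hz
    linarith
  have hu : (z - I) / (z + I) ∈ Metric.ball (0 : ℂ) 1 := by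
    rw [Metric.mem_ball, dist_zero_right, norm_div, div_lt_one (norm_pos_iff.mpr hzI),
      Complex.norm_def, Complex.norm_def]
    apply Real.sqrt_lt_sqrt (Complex.normSq_nonneg _)
    simp [Complex.normSq_apply]
    rw [mem_uhpSet] at hz
    nlinarith
  have h1 : HasDerivAt (fun z : ℂ ↦ (z - I) / (z + I)) (2 * I / (z + I) ^ 2) z := by
    convert! ((hasDerivAt_id z).sub_const I).div ((hasDerivAt_id z).add_const I) hzI using 1
    simp only [id]
    ring
  have h2 := (hQ _ hu).comp z h1
  have h1u : (1 : ℂ) - (z - I) / (z + I) = 2 * I / (z + I) := by field_simp; ring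
  have hwz : w ((z - I) / (z + I)) = z := by
    simp only [w]
    rw [h1u]
    field_simp
    ring
  beta_reduce at h2
  rw [hwz, h1u] at h2
  convert! h2 using 1
  field_simp

theorem Decays.exists_isPrim {F : ℂ → ℂ} (hF : Decays F) : ∃ H, IsPrim F H := by
  obtain ⟨P, hP⟩ := exists_hasDerivAt_uhpSet hF.diff
  obtain ⟨C, c, A₀, hc, hb₀⟩ := hF.bound
  set A := max A₀ 1 with hA
  have hb : ∀ z : ℂ, A ≤ z.im → ‖F z‖ ≤ C * Real.exp (-(c * z.im)) :=
    fun z hz ↦ hb₀ z ((le_max_left _ _).trans hz)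
  have hA0 : 0 < A := lt_of_lt_of_le one_pos (le_max_right _ _)
  have hC : 0 ≤ C := by
    have := (norm_nonneg _).trans (hb (A * I) (by simp))
    exact nonneg_of_mul_nonneg_left this (Real.exp_pos _)
  -- mean value inequality in the half plane `y ≤ im z`
  have hmvt : ∀ y, A ≤ y → ∀ z w : ℂ, y ≤ z.im → y ≤ w.im →
      ‖P w - P z‖ ≤ C * Real.exp (-(c * y)) * ‖w - z‖ := by
    intro y hy z w hz hw
    refine Convex.norm_image_sub_le_of_norm_hasDerivWithin_le (𝕜 := ℂ) (f' := F)
      (s := {z : ℂ | y ≤ z.im}) ?_ ?_ (convex_halfSpace_im_ge y) hz hw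
    · intro u hu
      exact (hP u (mem_uhpSet.mpr (lt_of_lt_of_le hA0 (hy.trans hu)))).hasDerivWithinAt
    · intro u hu
      refine (hb u (hy.trans hu)).trans ?_
      gcongr
      exact hu
  -- the sequence along integral points of the imaginary axis converges
  let s : ℕ → ℂ := fun m ↦ P ((A + m : ℝ) * I)
  have hr : Real.exp (-c) < 1 := by simp [hc]
  have hs : ∀ m, dist (s m) (s (m + 1)) ≤ C * Real.exp (-(c * A)) * Real.exp (-c) ^ m := by
    intro m
    rw [dist_comm, dist_eq_norm]
    refine (hmvt (A + m) (by simp) _ _ (by simp) (by simp)).trans (le_of_eq ?_)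
    have : ((A + ((m + 1 : ℕ) : ℝ) : ℝ) : ℂ) * I - ((A + (m : ℝ) : ℝ) : ℂ) * I = I := by
      push_cast; ring
    rw [this, Complex.norm_I, mul_one, ← Real.exp_nat_mul, mul_assoc, ← Real.exp_add]
    congr 2
    ring
  have hcauchy := cauchySeq_of_le_geometric _ _ hr hs
  obtain ⟨L, hL⟩ := cauchySeq_tendsto_of_complete hcauchy
  have hdist : ∀ m, ‖s m - L‖ ≤
      C * Real.exp (-(c * A)) * Real.exp (-c) ^ m / (1 - Real.exp (-c)) := by
    intro m
    rw [← dist_eq_norm]
    exact dist_le_of_le_geometric_of_tendsto _ _ hr hs hL m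
  -- translation in the real direction
  refine ⟨fun z ↦ P z - L, fun z hz ↦ (hP z hz).sub_const L, ⟨fun z hz ↦
    ((hP z hz).sub_const L).differentiableAt.differentiableWithinAt, ?_⟩⟩
  have hlim : ∀ x : ℝ, Tendsto (fun m : ℕ ↦ P ((x : ℂ) + (A + m : ℝ) * I)) atTop (𝓝 L) := by
    intro x
    have h0 : Tendsto (fun m : ℕ ↦ C * Real.exp (-(c * (A + m))) * ‖(x : ℂ)‖) atTop (𝓝 0) := by
      have h1 : Tendsto (fun m : ℕ ↦ -(c * (A + m))) atTop atBot :=
        tendsto_neg_atTop_atBot.comp
          ((tendsto_const_nhds.add_atTop tendsto_natCast_atTop_atTop).const_mul_atTop hc)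
      simpa using ((Real.tendsto_exp_atBot.comp h1).const_mul C).mul_const ‖(x : ℂ)‖
    have h2 : Tendsto (fun m : ℕ ↦ P ((x : ℂ) + (A + m : ℝ) * I) - s m) atTop (𝓝 0) := by
      refine squeeze_zero_norm (fun m ↦ ?_) h0
      refine (hmvt (A + m) (by simp) _ _ (by simp) (by simp)).trans (le_of_eq ?_)
      simp
    simpa using h2.add hL
  refine ⟨C * Real.exp c / (1 - Real.exp (-c)) + C * Real.exp c, c, A, hc, fun z hz ↦ ?_⟩
  obtain ⟨x, y, rfl⟩ : ∃ x y : ℝ, z = x + y * I := ⟨z.re, z.im, (Complex.re_add_im z).symm⟩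
  simp only [Complex.add_im, Complex.ofReal_im, Complex.mul_im, Complex.ofReal_re, Complex.I_im,
    Complex.I_re, mul_one, mul_zero, add_zero, zero_add] at hz ⊢
  -- compare with the sequence on the vertical line through `z`
  set t : ℕ → ℂ := fun m ↦ P ((x : ℂ) + (A + m : ℝ) * I) with ht
  have hts : ∀ m, dist (t m) (t (m + 1)) ≤ C * Real.exp (-(c * A)) * Real.exp (-c) ^ m := by
    intro m
    rw [dist_comm, dist_eq_norm]
    refine (hmvt (A + m) (by simp) _ _ (by simp) (by simp)).trans (le_of_eq ?_)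
    have : ((x : ℂ) + ((A + ((m + 1 : ℕ) : ℝ) : ℝ) : ℂ) * I) -
        ((x : ℂ) + ((A + (m : ℝ) : ℝ) : ℂ) * I) = I := by
      push_cast; ring
    rw [this, Complex.norm_I, mul_one, ← Real.exp_nat_mul, mul_assoc, ← Real.exp_add]
    congr 2
    ring
  let m := ⌊y - A⌋₊
  have hm1 : (m : ℝ) ≤ y - A := Nat.floor_le (by linarith)
  have hm2 : y - A < m + 1 := Nat.lt_floor_add_one _
  have hd1 : ‖t m - L‖ ≤ C * Real.exp (-(c * A)) * Real.exp (-c) ^ m / (1 - Real.exp (-c)) := by
    rw [← dist_eq_norm]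
    exact dist_le_of_le_geometric_of_tendsto _ _ hr hts (hlim x) m
  have hexp : Real.exp (-(c * (A + m))) ≤ Real.exp c * Real.exp (-(c * y)) := by
    rw [← Real.exp_add]
    gcongr
    nlinarith
  have hd2 : ‖P ((x : ℂ) + y * I) - t m‖ ≤ C * (Real.exp c * Real.exp (-(c * y))) := by
    refine (hmvt (A + m) (by simp) _ _ (by simp) (by simp; linarith)).trans ?_
    have : ((x : ℂ) + y * I) - ((x : ℂ) + ((A + m : ℝ) : ℂ) * I) = ((y - A - m : ℝ) : ℂ) * I := by
      push_cast; ring
    rw [this, norm_mul, Complex.norm_I, mul_one, Complex.norm_real, Real.norm_eq_abs,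
      abs_of_nonneg (by linarith)]
    calc C * Real.exp (-(c * (A + m))) * (y - A - m) ≤ C * Real.exp (-(c * (A + m))) * 1 :=
          mul_le_mul_of_nonneg_left (by linarith) (by positivity)
      _ ≤ _ := by rw [mul_one]; gcongr
  -- to keep a single constant `C'`
  have hd1' : ‖t m - L‖ ≤ C * Real.exp c / (1 - Real.exp (-c)) * Real.exp (-(c * y)) := by
    refine hd1.trans ?_
    rw [mul_assoc C, ← Real.exp_nat_mul, ← Real.exp_add,
      show -(c * A) + (m : ℝ) * -c = -(c * (A + m)) by ring, div_mul_eq_mul_div, mul_assoc C]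
    gcongr
  calc ‖P ((x : ℂ) + y * I) - L‖ ≤ ‖P ((x : ℂ) + y * I) - t m‖ + ‖t m - L‖ :=
        norm_sub_le_norm_sub_add_norm_sub _ _ _
    _ ≤ _ := (add_le_add hd2 hd1').trans (le_of_eq (by ring))

/-- A decaying function tends to zero along vertical lines. -/
theorem Decays.tendsto_zero {F : ℂ → ℂ} (hF : Decays F) (x : ℝ) :
    Tendsto (fun y : ℝ ↦ F (x + y * I)) atTop (𝓝 0) := by
  obtain ⟨C, c, A, hc, hb⟩ := hF.bound
  have h0 : Tendsto (fun y : ℝ ↦ C * Real.exp (-(c * y))) atTop (𝓝 0) := by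
    simpa using (Real.tendsto_exp_atBot.comp
      (tendsto_neg_atTop_atBot.comp (tendsto_id.const_mul_atTop hc))).const_mul C
  refine squeeze_zero_norm' ?_ h0
  filter_upwards [eventually_ge_atTop A] with y hy
  simpa using hb (x + y * I) (by simpa using hy)

theorem Decays.poly_mul_tendsto_zero {F : ℂ → ℂ} (hF : Decays F) (q : ℂ[X]) (x : ℝ) :
    Tendsto (fun y : ℝ ↦ q.eval (x + y * I) * F (x + y * I)) atTop (𝓝 0) := by
  induction q using Polynomial.induction_on' with
  | add p q hp hq => simpa [add_mul] using hp.add hq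
  | monomial m a =>
    obtain ⟨C, c, A, hc, hb⟩ := hF.bound
    have h1 := (tendsto_rpow_mul_exp_neg_mul_atTop_nhds_zero m c hc).const_mul
      (‖a‖ * (|x| + 1) ^ m * C)
    rw [mul_zero] at h1
    refine squeeze_zero_norm' ?_ h1
    filter_upwards [eventually_ge_atTop A, eventually_ge_atTop 1] with y hy hy1
    rw [eval_monomial, norm_mul, norm_mul, norm_pow, Real.rpow_natCast]
    have hn : ‖(x : ℂ) + y * I‖ ≤ (|x| + 1) * y := by
      refine (norm_add_le _ _).trans ?_
      simp only [Complex.norm_real, norm_mul, Complex.norm_I, mul_one, Real.norm_eq_abs]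
      rw [abs_of_nonneg (zero_le_one.trans hy1)]
      nlinarith [abs_nonneg x]
    have hb' : ‖F (x + y * I)‖ ≤ C * Real.exp (-(c * y)) := by
      simpa using hb (x + y * I) (by simpa using hy)
    calc ‖a‖ * ‖(x : ℂ) + y * I‖ ^ m * ‖F (x + y * I)‖
        ≤ ‖a‖ * ((|x| + 1) * y) ^ m * (C * Real.exp (-(c * y))) := by
          refine mul_le_mul ?_ hb' (norm_nonneg _) (by positivity)
          gcongr
      _ = _ := by rw [mul_pow, neg_mul]; ring

/-- Two primitives on the upper half plane differ by a constant. -/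
theorem eq_add_const_of_hasDerivAt {H₁ H₂ h : ℂ → ℂ} (h₁ : ∀ z ∈ uhpSet, HasDerivAt H₁ (h z) z)
    (h₂ : ∀ z ∈ uhpSet, HasDerivAt H₂ (h z) z) : ∃ C, ∀ z ∈ uhpSet, H₁ z = H₂ z + C := by
  obtain ⟨C, hC⟩ := isOpen_uhpSet.exists_eq_add_of_deriv_eq isPreconnected_uhpSet
    (fun z hz ↦ (h₁ z hz).differentiableAt.differentiableWithinAt)
    (fun z hz ↦ (h₂ z hz).differentiableAt.differentiableWithinAt)
    (fun z hz ↦ (h₁ z hz).deriv.trans (h₂ z hz).deriv.symm)
  exact ⟨C, hC⟩

/-- Tending to zero along each vertical line at `i∞`. -/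
def VertZero (H : ℂ → ℂ) : Prop := ∀ x : ℝ, Tendsto (fun y : ℝ ↦ H (x + y * I)) atTop (𝓝 0)

/-- Vertical lines eventually lie in the upper half plane. -/
theorem eventually_mem_uhpSet (x : ℝ) : ∀ᶠ y : ℝ in atTop, (x : ℂ) + y * I ∈ uhpSet := by
  filter_upwards [eventually_gt_atTop 0] with y hy
  simpa using hy

/-- Primitives vanishing at `i∞` are equal. -/
theorem eqOn_of_vertZero {H₁ H₂ h : ℂ → ℂ} (h₁ : ∀ z ∈ uhpSet, HasDerivAt H₁ (h z) z)
    (h₂ : ∀ z ∈ uhpSet, HasDerivAt H₂ (h z) z) (v₁ : VertZero H₁) (v₂ : VertZero H₂) :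
    ∀ z ∈ uhpSet, H₁ z = H₂ z := by
  obtain ⟨C, hC⟩ := eq_add_const_of_hasDerivAt h₁ h₂
  have h3 : Tendsto (fun y : ℝ ↦ H₂ ((0 : ℝ) + y * I) + C) atTop (𝓝 (0 + C)) :=
    (v₂ 0).add_const C
  have h4 : C = 0 := by
    have := tendsto_nhds_unique ((v₁ 0).congr'
      ((eventually_mem_uhpSet 0).mono fun y hy ↦ hC _ hy)) h3
    simpa using this.symm
  intro z hz
  rw [hC z hz, h4, add_zero]

open scoped Classical in
/-- The primitive vanishing at `i∞` (junk value `0` if there is none). -/
def prim (F : ℂ → ℂ) : ℂ → ℂ := if h : ∃ H, IsPrim F H then h.choose else 0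

/-- `prim` is a primitive. -/
theorem Decays.isPrim_prim {F : ℂ → ℂ} (hF : Decays F) : IsPrim F (prim F) := by
  rw [prim, dif_pos hF.exists_isPrim]
  exact hF.exists_isPrim.choose_spec

/-- Iterated primitives vanishing at `i∞`. -/
def primIter (F : ℂ → ℂ) (m : ℕ) : ℂ → ℂ := prim^[m] F

@[simp] theorem primIter_zero (F : ℂ → ℂ) : primIter F 0 = F := rfl

theorem primIter_succ (F : ℂ → ℂ) (m : ℕ) : primIter F (m + 1) = prim (primIter F m) :=
  Function.iterate_succ_apply' _ _ _

/-- Iterated primitives decay. -/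
theorem Decays.primIter {F : ℂ → ℂ} (hF : Decays F) :
    ∀ m, Decays (Fermat.Agent.EichlerPeriods.primIter F m)
  | 0 => hF
  | m + 1 => by
    rw [primIter_succ]
    exact (Decays.primIter hF m).isPrim_prim.2

theorem Decays.hasDerivAt_primIter {F : ℂ → ℂ} (hF : Decays F) (m : ℕ) {z : ℂ} (hz : z ∈ uhpSet) :
    HasDerivAt (Fermat.Agent.EichlerPeriods.primIter F (m + 1))
      (Fermat.Agent.EichlerPeriods.primIter F m z) z := by
  rw [primIter_succ]
  exact (hF.primIter m).isPrim_prim.1 z hz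

/-- For `deg q ≤ n` the primitive of `q * F` vanishing at `i∞`. -/
def polyPrim (n : ℕ) (F : ℂ → ℂ) (q : ℂ[X]) (z : ℂ) : ℂ :=
  ∑ i ∈ Finset.range (n + 1), (-1) ^ i * ((derivative^[i] q).eval z * primIter F (i + 1) z)

/-- `polyPrim` vanishes at `i∞`. -/
theorem polyPrim_vertZero (n : ℕ) {F : ℂ → ℂ} (hF : Decays F) (q : ℂ[X]) :
    VertZero (polyPrim n F q) := fun x ↦ by
  have := tendsto_finsetSum (Finset.range (n + 1))
    fun i _ ↦ ((hF.primIter (i + 1)).poly_mul_tendsto_zero (derivative^[i] q) x).const_mul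
      ((-1 : ℂ) ^ i)
  simpa [polyPrim] using this

/-- `polyPrim n F q` is a primitive of `q F`. -/
theorem hasDerivAt_polyPrim (n : ℕ) {F : ℂ → ℂ} (hF : Decays F) {q : ℂ[X]}
    (hq : q.natDegree ≤ n) {z : ℂ} (hz : z ∈ uhpSet) :
    HasDerivAt (polyPrim n F q) (q.eval z * F z) z := by
  have key : ∀ m, HasDerivAt (fun w ↦ ∑ i ∈ Finset.range m,
      (-1) ^ i * ((derivative^[i] q).eval w * primIter F (i + 1) w))
      (q.eval z * F z - (-1) ^ m * ((derivative^[m] q).eval z * primIter F m z)) z := by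
    intro m
    induction m with
    | zero => simpa using hasDerivAt_const z (0 : ℂ)
    | succ m ih =>
      simp_rw [Finset.sum_range_succ]
      have h1 : HasDerivAt (fun w ↦ (derivative^[m] q).eval w)
          ((derivative^[m + 1] q).eval z) z := by
        rw [Function.iterate_succ_apply']
        exact (derivative^[m] q).hasDerivAt z
      convert! ih.add ((h1.mul (hF.hasDerivAt_primIter m hz)).const_mul ((-1 : ℂ) ^ m)) using 1
      rw [pow_succ]
      ring
  have h := key (n + 1)
  rw [iterate_derivative_eq_zero (Nat.lt_succ_of_le hq)] at h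
  simp only [eval_zero, zero_mul, mul_zero, sub_zero] at h
  exact h

/-- `polyPrim` is the only primitive of `q F` vanishing at `i∞`. -/
theorem polyPrim_unique (n : ℕ) {F : ℂ → ℂ} (hF : Decays F) {q : ℂ[X]} (hq : q.natDegree ≤ n)
    {H : ℂ → ℂ} (h : ∀ z ∈ uhpSet, HasDerivAt H (q.eval z * F z) z) (hv : VertZero H)
    {z : ℂ} (hz : z ∈ uhpSet) : H z = polyPrim n F q z :=
  eqOn_of_vertZero h (fun _ hw ↦ hasDerivAt_polyPrim n hF hq hw) hv (polyPrim_vertZero n hF q) z hz

/-- `polyPrim` is additive in the polynomial. -/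
theorem polyPrim_add_poly (n : ℕ) (F : ℂ → ℂ) (q r : ℂ[X]) (z : ℂ) :
    polyPrim n F (q + r) z = polyPrim n F q z + polyPrim n F r z := by
  simp only [polyPrim, iterate_map_add, eval_add, add_mul, mul_add, Finset.sum_add_distrib]

/-- `polyPrim` is homogeneous in the polynomial. -/
theorem polyPrim_smul_poly (n : ℕ) (F : ℂ → ℂ) (a : ℂ) (q : ℂ[X]) (z : ℂ) :
    polyPrim n F (a • q) z = a * polyPrim n F q z := by
  simp only [polyPrim, iterate_derivative_smul, eval_smul, smul_eq_mul, Finset.mul_sum]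
  exact Finset.sum_congr rfl fun i _ ↦ by ring

/-- At `τ` the primitive of `(X - τ)ⁿ F` is a multiple of an iterated primitive. -/
theorem polyPrim_eval_self (n : ℕ) (F : ℂ → ℂ) (τ : ℂ) :
    polyPrim n F ((X - C τ) ^ n) τ = (-1) ^ n * n.factorial * primIter F (n + 1) τ := by
  rw [polyPrim, Finset.sum_range_succ, Finset.sum_eq_zero, zero_add,
    iterate_derivative_X_sub_pow_self]
  · simp [mul_assoc]
  · intro i hi
    rw [Finset.mem_range] at hi
    simp [iterate_derivative_X_sub_pow, zero_pow (Nat.sub_ne_zero_of_lt hi)]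

/-- A function with vanishing iterated primitive vanishes. -/
theorem eq_zero_of_primIter_eq_zero {F : ℂ → ℂ} (hF : Decays F) :
    ∀ m, (∀ z ∈ uhpSet, primIter F m z = 0) → ∀ z ∈ uhpSet, F z = 0
  | 0, h => h
  | m + 1, h => eq_zero_of_primIter_eq_zero hF m fun z hz ↦ by
    have h1 := hF.hasDerivAt_primIter m hz
    have h2 : HasDerivAt (primIter F (m + 1)) 0 z :=
      (hasDerivAt_const z (0 : ℂ)).congr_of_eventuallyEq
        (Filter.eventuallyEq_of_mem (isOpen_uhpSet.mem_nhds hz) h)
    exact h1.unique h2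

end Fermat.Agent.EichlerPeriods

end
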