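import Mathlib.LinearAlgebra.Matrix.FixedDetMatrices
import Mathlib.NumberTheory.ModularForms.CongruenceSubgroups
import Mathlib.NumberTheory.ModularForms.QExpansion
import Mathlib.RingTheory.Finiteness.Basic
import Fermat.Agent.EichlerPeriods.Primitive

/-!
# Period functionals of cusp forms on `Γ₀(N)` of weight `n + 2`

`periodVal n F g₀ h q` is the value at the cusp `h ∞` of the primitive of `q * (f ∣ g₀)` vanishing
at `i∞`. As functionals of `f`, those with integral `q` of degree `≤ n` span a finitely generated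
subgroup of the dual (Manin's trick, in the form of induction on a word in `S` and `T`).
-/

set_option autoImplicit false

noncomputable section

namespace Fermat.Agent.EichlerPeriods

open Filter Topology Polynomial UpperHalfPlane
open scoped MatrixGroups ModularForm Manifold

variable {N : ℕ} {n : ℕ}

/-- Moebius transformation on `ℂ`. -/
def mob (g : SL(2, ℤ)) (z : ℂ) : ℂ :=
  ((g 0 0 : ℂ) * z + (g 0 1 : ℂ)) / ((g 1 0 : ℂ) * z + (g 1 1 : ℂ))

/-- Automorphy factor. -/
def jFac (g : SL(2, ℤ)) (z : ℂ) : ℂ := (g 1 0 : ℂ) * z + (g 1 1 : ℂ)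

/-- The action of `SL(2, ℤ)` on `ℍ` is given by `mob`. -/
theorem coe_smul_eq_mob (g : SL(2, ℤ)) (τ : ℍ) : ((g • τ : ℍ) : ℂ) = mob g τ := by
  rw [UpperHalfPlane.coe_specialLinearGroup_apply]
  simp [mob]

/-- The automorphy factor does not vanish on the upper half plane. -/
theorem jFac_ne_zero (g : SL(2, ℤ)) {z : ℂ} (hz : z ∈ uhpSet) : jFac g z ≠ 0 := by
  have := UpperHalfPlane.denom_ne_zero (g : GL (Fin 2) ℝ) ⟨z, hz⟩
  simpa [jFac, UpperHalfPlane.denom] using this

/-- `mob` preserves the upper half plane. -/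
theorem mob_mem_uhpSet (g : SL(2, ℤ)) {z : ℂ} (hz : z ∈ uhpSet) : mob g z ∈ uhpSet := by
  have := (g • (⟨z, hz⟩ : ℍ)).im_pos
  rw [← UpperHalfPlane.coe_im, coe_smul_eq_mob] at this
  exact this

theorem mob_mul (g h : SL(2, ℤ)) {z : ℂ} (hz : z ∈ uhpSet) : mob (g * h) z = mob g (mob h z) := by
  have := congrArg (fun τ : ℍ ↦ (τ : ℂ)) (mul_smul g h (⟨z, hz⟩ : ℍ))
  simp only [coe_smul_eq_mob] at this
  exact this

theorem mob_one (z : ℂ) : mob 1 z = z := by simp [mob]

theorem hasDerivAt_mob (g : SL(2, ℤ)) {z : ℂ} (hz : z ∈ uhpSet) :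
    HasDerivAt (mob g) (1 / jFac g z ^ 2) z := by
  have hdet : (g 0 0 : ℂ) * g 1 1 - (g 0 1 : ℂ) * g 1 0 = 1 := by
    have := g.det_coe
    rw [Matrix.det_fin_two] at this
    exact_mod_cast this
  have h1 := ((hasDerivAt_id z).const_mul (g 0 0 : ℂ)).add_const (g 0 1 : ℂ)
  have h2 := ((hasDerivAt_id z).const_mul (g 1 0 : ℂ)).add_const (g 1 1 : ℂ)
  convert! h1.div h2 (jFac_ne_zero g hz) using 1
  simp only [id, jFac]
  congr 1
  linear_combination -hdet

/-- `f ∣[n+2] g`, as a function on `ℂ`. -/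
def slashC (n : ℕ) (f : ℍ → ℂ) (g : SL(2, ℤ)) : ℂ → ℂ :=
  (f ∣[(n : ℤ) + 2] g) ∘ UpperHalfPlane.ofComplex

theorem slashC_mul_apply (f : ℍ → ℂ) (g h : SL(2, ℤ)) {z : ℂ} (hz : z ∈ uhpSet) :
    slashC n f (g * h) z = slashC n f g (mob h z) / jFac h z ^ (n + 2) := by
  have h1 : UpperHalfPlane.ofComplex (mob h z) = h • (⟨z, hz⟩ : ℍ) := by
    rw [← UpperHalfPlane.ofComplex_apply (h • (⟨z, hz⟩ : ℍ)), coe_smul_eq_mob]
  simp only [slashC, Function.comp_apply, SlashAction.slash_mul,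
    UpperHalfPlane.ofComplex_apply_of_im_pos hz, h1]
  rw [ModularForm.SL_slash_apply (f ∣[(n : ℤ) + 2] g), zpow_neg, div_eq_mul_inv]
  congr 2

/-- The slash by the identity. -/
theorem slashC_one_apply (f : ℍ → ℂ) (τ : ℍ) : slashC n f 1 (τ : ℂ) = f τ := by
  simp [slashC]

/-- Slashes of a form are invariant under `Γ₀(N)` on the left. -/
theorem slashC_mem_Gamma0 (f : CuspForm (CongruenceSubgroup.Gamma0 N) ((n : ℤ) + 2))
    {γ : SL(2, ℤ)} (hγ : γ ∈ CongruenceSubgroup.Gamma0 N) (g : SL(2, ℤ)) :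
    slashC n ⇑f (γ * g) = slashC n ⇑f g := by
  simp only [slashC, SlashAction.slash_mul]
  rw [show ⇑f ∣[(n : ℤ) + 2] γ = ⇑f from
    SlashInvariantFormClass.slash_action_eq f _ (Subgroup.mem_map_of_mem _ hγ)]

/-- Slashes of a cusp form decay at `i∞`. -/
theorem decays_slashC [NeZero N] (f : CuspForm (CongruenceSubgroup.Gamma0 N) ((n : ℤ) + 2))
    (g : SL(2, ℤ)) : Decays (slashC n ⇑f g) := by
  have hper : Function.Periodic (slashC n ⇑f g) N := by
    intro z
    simp only [slashC, Function.comp_apply]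
    by_cases hz : 0 < z.im
    · have hT : g * ModularGroup.T ^ (N : ℤ) * g⁻¹ ∈ CongruenceSubgroup.Gamma0 N := by
        refine (show CongruenceSubgroup.Gamma N ≤ CongruenceSubgroup.Gamma0 N from ?_) ?_
        · intro x hx
          rw [CongruenceSubgroup.Gamma_mem] at hx
          exact CongruenceSubgroup.Gamma0_mem.mpr hx.2.2.1
        · refine (CongruenceSubgroup.Gamma_normal N).conj_mem _ ?_ g
          rw [CongruenceSubgroup.Gamma_mem, ModularGroup.coe_T_zpow]
          simp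
      have h1 := congrFun (slashC_mem_Gamma0 f hT g) z
      rw [show g * ModularGroup.T ^ (N : ℤ) * g⁻¹ * g = g * ModularGroup.T ^ (N : ℤ) by group,
        slashC_mul_apply _ _ _ hz] at h1
      have hm : mob (ModularGroup.T ^ (N : ℤ)) z = z + N := by
        rw [mob, ModularGroup.coe_T_zpow]
        simp
      have hj : jFac (ModularGroup.T ^ (N : ℤ)) z = 1 := by
        rw [jFac, ModularGroup.coe_T_zpow]
        simp
      rw [hm, hj, one_pow, div_one] at h1
      simpa [slashC] using h1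
    · have hz' : (z + N).im ≤ 0 := by simpa using not_lt.mp hz
      rw [UpperHalfPlane.ofComplex_apply_of_im_nonpos hz',
        UpperHalfPlane.ofComplex_apply_of_im_nonpos (not_lt.mp hz)]
  have hzero : IsZeroAtImInfty (⇑f ∣[(n : ℤ) + 2] g) := CuspFormClass.zero_at_infty_slash f g
  have hhol : MDiff (⇑f ∣[(n : ℤ) + 2] g) := (CuspFormClass.holo f).slash _ _
  have hN : (0 : ℝ) < N := by exact_mod_cast NeZero.pos N
  have hexp := hzero.exp_decay_atImInfty hN (by exact_mod_cast hper) hhol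
    hzero.isBoundedAtImInfty
  refine ⟨UpperHalfPlane.mdifferentiable_iff.mp hhol, ?_⟩
  obtain ⟨C, hC⟩ := hexp.bound
  obtain ⟨A, hA⟩ := (UpperHalfPlane.atImInfty_mem _).mp hC
  refine ⟨C, 2 * Real.pi / N, max A 1, by positivity, fun z hz ↦ ?_⟩
  have hz0 : 0 < z.im := lt_of_lt_of_le one_pos ((le_max_right _ _).trans hz)
  have h1 := hA ⟨z, hz0⟩ ((le_max_left _ _).trans hz)
  rw [Set.mem_ofPred_eq, Real.norm_of_nonneg (Real.exp_pos _).le] at h1
  simp only [slashC, Function.comp_apply, UpperHalfPlane.ofComplex_apply_of_im_pos hz0]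
  refine h1.trans (le_of_eq ?_)
  congr 2
  change -2 * Real.pi * z.im / N = _
  ring

/-- `q ↦ q((aX+b)/(cX+d)) (cX+d)^n` on polynomials of degree `≤ n`. -/
def actPoly (n : ℕ) (a b c d : ℂ) (q : ℂ[X]) : ℂ[X] :=
  ∑ i ∈ Finset.range (n + 1), C (q.coeff i) * (C a * X + C b) ^ i * (C c * X + C d) ^ (n - i)

/-- The transformed polynomial has degree at most `n`. -/
theorem natDegree_actPoly_le (a b c d : ℂ) (q : ℂ[X]) : (actPoly n a b c d q).natDegree ≤ n := by
  refine natDegree_sum_le_of_forall_le _ _ fun i hi ↦ ?_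
  rw [Finset.mem_range] at hi
  refine natDegree_mul_le.trans ?_
  refine (Nat.add_le_add (natDegree_C_mul_le _ _) le_rfl).trans ?_
  refine (Nat.add_le_add (natDegree_pow_le_of_le i natDegree_linear_le)
    (natDegree_pow_le_of_le (n - i) natDegree_linear_le)).trans ?_
  omega

/-- Evaluation of the transformed polynomial. -/
theorem eval_actPoly {q : ℂ[X]} (hq : q.natDegree ≤ n) (a b c d : ℂ) {z : ℂ}
    (hz : c * z + d ≠ 0) :
    (actPoly n a b c d q).eval z = q.eval ((a * z + b) / (c * z + d)) * (c * z + d) ^ n := by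
  rw [actPoly, eval_finsetSum, eval_eq_sum_range' (Nat.lt_succ_of_le hq), Finset.sum_mul]
  refine Finset.sum_congr rfl fun i hi ↦ ?_
  rw [Finset.mem_range] at hi
  simp only [eval_mul, eval_pow, eval_add, eval_C, eval_X, div_pow]
  rw [show (c * z + d) ^ n = (c * z + d) ^ i * (c * z + d) ^ (n - i) by
    rw [← pow_add, Nat.add_sub_cancel' (show i ≤ n by omega)]]
  generalize hu : c * z + d = u at hz ⊢
  field_simp

/-- Polynomials with integer coefficients. -/
def IntPoly (q : ℂ[X]) : Prop := q ∈ lifts (Int.castRingHom ℂ)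

/-- The transformation preserves integral polynomials. -/
theorem intPoly_actPoly {q : ℂ[X]} (hq : IntPoly q) (a b c d : ℤ) :
    IntPoly (actPoly n a b c d q) := by
  have hC : ∀ r : ℤ, (C (r : ℂ) : ℂ[X]) ∈ lifts (Int.castRingHom ℂ) :=
    fun r ↦ C'_mem_lifts ⟨r, rfl⟩
  refine Subsemiring.sum_mem _ fun i _ ↦ ?_
  refine Subsemiring.mul_mem _ (Subsemiring.mul_mem _ ?_ ?_) ?_
  · exact C'_mem_lifts ((lifts_iff_coeff_lifts q).mp hq i)
  · exact Subsemiring.pow_mem _
      (Subsemiring.add_mem _ (Subsemiring.mul_mem _ (hC a) (X_mem_lifts _)) (hC b)) _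
  · exact Subsemiring.pow_mem _
      (Subsemiring.add_mem _ (Subsemiring.mul_mem _ (hC c) (X_mem_lifts _)) (hC d)) _

/-- The right action of `SL(2, ℤ)` on polynomials of degree `≤ n`. -/
def slPoly (n : ℕ) (g : SL(2, ℤ)) (q : ℂ[X]) : ℂ[X] :=
  actPoly n (g 0 0 : ℤ) (g 0 1 : ℤ) (g 1 0 : ℤ) (g 1 1 : ℤ) q

/-- The polynomial transformed by `g` has degree at most `n`. -/
theorem natDegree_slPoly_le (g : SL(2, ℤ)) (q : ℂ[X]) : (slPoly n g q).natDegree ≤ n :=
  natDegree_actPoly_le _ _ _ _ q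

theorem intPoly_slPoly {q : ℂ[X]} (hq : IntPoly q) (g : SL(2, ℤ)) : IntPoly (slPoly n g q) :=
  intPoly_actPoly hq _ _ _ _

/-- Evaluation of the polynomial transformed by `g`. -/
theorem eval_slPoly {q : ℂ[X]} (hq : q.natDegree ≤ n) (g : SL(2, ℤ)) {z : ℂ} (hz : z ∈ uhpSet) :
    (slPoly n g q).eval z = q.eval (mob g z) * jFac g z ^ n :=
  eval_actPoly hq _ _ _ _ (jFac_ne_zero g hz)

/-- Value at the cusp `h ∞` of the primitive of `q * (f ∣ g₀)`. -/
def periodVal (n : ℕ) (f : ℍ → ℂ) (g₀ h : SL(2, ℤ)) (q : ℂ[X]) : ℂ :=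
  limUnder atTop fun y : ℝ ↦ polyPrim n (slashC n f g₀) q (mob h ((0 : ℝ) + y * Complex.I))

/-- A period is the constant relating two primitives. -/
theorem periodVal_eq_of {f : ℍ → ℂ} {g₀ h : SL(2, ℤ)} {q : ℂ[X]} {Ψ : ℂ → ℂ} {K : ℂ}
    (hΨ : VertZero Ψ)
    (heq : ∀ z ∈ uhpSet, polyPrim n (slashC n f g₀) q (mob h z) = Ψ z + K) :
    periodVal n f g₀ h q = K := by
  apply Tendsto.limUnder_eq
  have h1 := (hΨ 0).add_const K
  rw [zero_add] at h1
  exact h1.congr' ((eventually_mem_uhpSet 0).mono fun y hy ↦ (heq _ hy).symm)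

/-- The defining property of the periods. -/
theorem periodVal_spec [NeZero N] (f : CuspForm (CongruenceSubgroup.Gamma0 N) ((n : ℤ) + 2))
    (g₀ h : SL(2, ℤ)) {q : ℂ[X]} (hq : q.natDegree ≤ n) :
    ∀ z ∈ uhpSet, polyPrim n (slashC n ⇑f g₀) q (mob h z) =
      polyPrim n (slashC n ⇑f (g₀ * h)) (slPoly n h q) z + periodVal n ⇑f g₀ h q := by
  have h1 : ∀ z ∈ uhpSet, HasDerivAt (fun z ↦ polyPrim n (slashC n ⇑f g₀) q (mob h z))
      ((slPoly n h q).eval z * slashC n ⇑f (g₀ * h) z) z := by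
    intro z hz
    convert! (hasDerivAt_polyPrim n (decays_slashC f g₀) hq (mob_mem_uhpSet h hz)).comp z
      (hasDerivAt_mob h hz) using 1
    rw [eval_slPoly hq h hz, slashC_mul_apply _ _ _ hz]
    have := jFac_ne_zero h hz
    field_simp
    ring
  obtain ⟨K, hK⟩ := eq_add_const_of_hasDerivAt h1
    (fun z hz ↦ hasDerivAt_polyPrim n (decays_slashC f (g₀ * h)) (natDegree_slPoly_le h q) hz)
  intro z hz
  rw [periodVal_eq_of (polyPrim_vertZero n (decays_slashC f (g₀ * h)) _) hK, hK z hz]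

variable [NeZero N]

theorem periodVal_mul (f : CuspForm (CongruenceSubgroup.Gamma0 N) ((n : ℤ) + 2))
    (g₀ g h : SL(2, ℤ)) {q : ℂ[X]} (hq : q.natDegree ≤ n) :
    periodVal n ⇑f g₀ (g * h) q =
      periodVal n ⇑f g₀ g q + periodVal n ⇑f (g₀ * g) h (slPoly n g q) := by
  refine periodVal_eq_of (polyPrim_vertZero n (decays_slashC f (g₀ * g * h))
    (slPoly n h (slPoly n g q))) fun z hz ↦ ?_
  rw [mob_mul g h hz, periodVal_spec f g₀ g hq _ (mob_mem_uhpSet h hz),
    periodVal_spec f (g₀ * g) h (natDegree_slPoly_le g q) z hz]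
  ring

theorem periodVal_one (f : CuspForm (CongruenceSubgroup.Gamma0 N) ((n : ℤ) + 2))
    (g₀ : SL(2, ℤ)) (q : ℂ[X]) : periodVal n ⇑f g₀ 1 q = 0 :=
  periodVal_eq_of (polyPrim_vertZero n (decays_slashC f g₀) q) fun z _ ↦ by
    rw [mob_one, add_zero]

theorem periodVal_T (f : CuspForm (CongruenceSubgroup.Gamma0 N) ((n : ℤ) + 2))
    (g₀ : SL(2, ℤ)) (q : ℂ[X]) : periodVal n ⇑f g₀ ModularGroup.T q = 0 := by
  refine periodVal_eq_of (Ψ := fun z ↦ polyPrim n (slashC n ⇑f g₀) q (z + 1)) ?_ fun z _ ↦ ?_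
  · intro x
    have := polyPrim_vertZero n (decays_slashC f g₀) q (x + 1)
    refine this.congr fun y ↦ ?_
    congr 1
    push_cast
    ring
  · simp [mob, ModularGroup.coe_T]

theorem periodVal_add (f f' : CuspForm (CongruenceSubgroup.Gamma0 N) ((n : ℤ) + 2))
    (g₀ h : SL(2, ℤ)) {q : ℂ[X]} (hq : q.natDegree ≤ n) :
    periodVal n ⇑(f + f') g₀ h q = periodVal n ⇑f g₀ h q + periodVal n ⇑f' g₀ h q := by
  have hlin : ∀ (g : SL(2, ℤ)) (r : ℂ[X]), r.natDegree ≤ n → ∀ z ∈ uhpSet,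
      polyPrim n (slashC n ⇑(f + f') g) r z =
        polyPrim n (slashC n ⇑f g) r z + polyPrim n (slashC n ⇑f' g) r z := by
    intro g r hr z hz
    refine (polyPrim_unique n (decays_slashC (f + f') g) hr (H := fun w ↦
      polyPrim n (slashC n ⇑f g) r w + polyPrim n (slashC n ⇑f' g) r w) ?_ ?_ hz).symm
    · intro w hw
      convert! (hasDerivAt_polyPrim n (decays_slashC f g) hr hw).add
        (hasDerivAt_polyPrim n (decays_slashC f' g) hr hw) using 1
      simp [slashC, mul_add]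
    · intro x
      simpa using (polyPrim_vertZero n (decays_slashC f g) r x).add
        (polyPrim_vertZero n (decays_slashC f' g) r x)
  refine periodVal_eq_of (polyPrim_vertZero n (decays_slashC (f + f') (g₀ * h)) (slPoly n h q))
    fun z hz ↦ ?_
  rw [hlin g₀ q hq _ (mob_mem_uhpSet h hz), hlin (g₀ * h) _ (natDegree_slPoly_le h q) z hz,
    periodVal_spec f g₀ h hq z hz, periodVal_spec f' g₀ h hq z hz]
  ring

theorem periodVal_smul (a : ℂ) (f : CuspForm (CongruenceSubgroup.Gamma0 N) ((n : ℤ) + 2))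
    (g₀ h : SL(2, ℤ)) {q : ℂ[X]} (hq : q.natDegree ≤ n) :
    periodVal n ⇑(a • f) g₀ h q = a * periodVal n ⇑f g₀ h q := by
  have hlin : ∀ (g : SL(2, ℤ)) (r : ℂ[X]), r.natDegree ≤ n → ∀ z ∈ uhpSet,
      polyPrim n (slashC n ⇑(a • f) g) r z = a * polyPrim n (slashC n ⇑f g) r z := by
    intro g r hr z hz
    refine (polyPrim_unique n (decays_slashC (a • f) g) hr (H := fun w ↦
      a * polyPrim n (slashC n ⇑f g) r w) ?_ ?_ hz).symm
    · intro w hw
      convert! (hasDerivAt_polyPrim n (decays_slashC f g) hr hw).const_mul a using 1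
      simp [slashC]
      ring
    · intro x
      simpa using (polyPrim_vertZero n (decays_slashC f g) r x).const_mul a
  refine periodVal_eq_of (polyPrim_vertZero n (decays_slashC (a • f) (g₀ * h)) (slPoly n h q))
    fun z hz ↦ ?_
  rw [hlin g₀ q hq _ (mob_mem_uhpSet h hz), hlin (g₀ * h) _ (natDegree_slPoly_le h q) z hz,
    periodVal_spec f g₀ h hq z hz]
  ring

/-- A period is a combination of the periods of monomials. -/
theorem periodVal_eq_sum_monomial (f : CuspForm (CongruenceSubgroup.Gamma0 N) ((n : ℤ) + 2))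
    (g₀ h : SL(2, ℤ)) {q : ℂ[X]} (hq : q.natDegree ≤ n) :
    periodVal n ⇑f g₀ h q =
      ∑ i ∈ Finset.range (n + 1), q.coeff i * periodVal n ⇑f g₀ h (X ^ i) := by
  let L : ℂ → ℂ[X] →ₗ[ℂ] ℂ := fun z ↦
    { toFun := fun r ↦ polyPrim n (slashC n ⇑f g₀) r z
      map_add' := fun r s ↦ polyPrim_add_poly n _ r s z
      map_smul' := fun a r ↦ polyPrim_smul_poly n _ a r z }
  refine periodVal_eq_of (Ψ := fun z ↦ ∑ i ∈ Finset.range (n + 1),
    q.coeff i * polyPrim n (slashC n ⇑f (g₀ * h)) (slPoly n h (X ^ i)) z) ?_ fun z hz ↦ ?_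
  · intro x
    simpa using tendsto_finsetSum (Finset.range (n + 1)) fun i _ ↦
      (polyPrim_vertZero n (decays_slashC f (g₀ * h)) (slPoly n h (X ^ i)) x).const_mul (q.coeff i)
  · rw [← Finset.sum_add_distrib]
    conv_lhs => rw [q.as_sum_range_C_mul_X_pow' (Nat.lt_succ_of_le hq)]
    change L (mob h z) _ = _
    rw [map_sum]
    refine Finset.sum_congr rfl fun i hi ↦ ?_
    rw [Finset.mem_range] at hi
    rw [← mul_add, ← periodVal_spec f g₀ h (by simp; omega) z hz, ← smul_eq_C_mul, map_smul]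
    rfl

variable (N n)

/-- The period functional attached to `(g₀, h, q)`. -/
def periodL (g₀ h : SL(2, ℤ)) (q : ℂ[X]) :
    Module.Dual ℂ (CuspForm (CongruenceSubgroup.Gamma0 N) ((n : ℤ) + 2)) :=
  if hq : q.natDegree ≤ n then
    { toFun := fun f ↦ periodVal n ⇑f g₀ h q
      map_add' := fun f f' ↦ periodVal_add f f' g₀ h hq
      map_smul' := fun a f ↦ periodVal_smul a f g₀ h hq }
  else 0

variable {N n}

/-- The period functional evaluates to the period. -/
theorem periodL_apply (g₀ h : SL(2, ℤ)) {q : ℂ[X]} (hq : q.natDegree ≤ n)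
    (f : CuspForm (CongruenceSubgroup.Gamma0 N) ((n : ℤ) + 2)) :
    periodL N n g₀ h q f = periodVal n ⇑f g₀ h q := by
  rw [periodL, dif_pos hq]
  rfl

variable (N n)

/-- The finite set of basic periods: Manin symbols. -/
def maninGens : Set (Module.Dual ℂ (CuspForm (CongruenceSubgroup.Gamma0 N) ((n : ℤ) + 2))) :=
  Set.range fun p : (SL(2, ℤ) ⧸ CongruenceSubgroup.Gamma0 N) × Fin (n + 1) ↦
    periodL N n p.1.out⁻¹ ModularGroup.S (X ^ (p.2 : ℕ))

theorem maninGens_finite : (maninGens N n).Finite := by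
  have : Finite (SL(2, ℤ) ⧸ CongruenceSubgroup.Gamma0 N) :=
    Subgroup.finite_quotient_of_finiteIndex
  exact Set.finite_range _

/-- Manin's trick: all integral periods are integral combinations of the basic ones. -/
theorem periodL_mem_span_maninGens (g₀ h : SL(2, ℤ)) {q : ℂ[X]} (hq : q.natDegree ≤ n)
    (hint : IntPoly q) : periodL N n g₀ h q ∈ Submodule.span ℤ (maninGens N n) := by
  suffices ∀ h ∈ Subgroup.closure {ModularGroup.S, ModularGroup.T}, ∀ (g₀ : SL(2, ℤ)) (q : ℂ[X]),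
      q.natDegree ≤ n → IntPoly q → periodL N n g₀ h q ∈ Submodule.span ℤ (maninGens N n) from
    this h (by simp [SpecialLinearGroup.SL2Z_generators]) g₀ q hq hint
  intro h hh
  induction hh using Subgroup.closure_induction with
  | mem x hx =>
    intro g₀ q hq hint
    rcases hx with rfl | rfl
    · -- the generator `S`
      set x : SL(2, ℤ) ⧸ CongruenceSubgroup.Gamma0 N := QuotientGroup.mk g₀⁻¹
      obtain ⟨⟨γ, hγ⟩, hx⟩ := QuotientGroup.mk_out_eq_mul (CongruenceSubgroup.Gamma0 N) g₀⁻¹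
      have hx' : x.out⁻¹ = γ⁻¹ * g₀ := by rw [hx]; simp
      have hz : ∀ i : ℕ, ∃ m : ℤ, q.coeff i = m := fun i ↦ by
        obtain ⟨m, hm⟩ := (lifts_iff_coeff_lifts q).mp hint i
        exact ⟨m, hm.symm⟩
      choose m hm using hz
      have : periodL N n g₀ ModularGroup.S q = ∑ i : Fin (n + 1),
          m i • periodL N n x.out⁻¹ ModularGroup.S (X ^ (i : ℕ)) := by
        ext f
        rw [periodL_apply _ _ hq, periodVal_eq_sum_monomial f _ _ hq, LinearMap.sum_apply,
          ← Fin.sum_univ_eq_sum_range fun i ↦ q.coeff i * periodVal n ⇑f g₀ ModularGroup.S (X ^ i)]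
        refine Finset.sum_congr rfl fun i _ ↦ ?_
        rw [LinearMap.smul_apply, periodL_apply _ _ (by simp; omega), zsmul_eq_mul, hm i]
        unfold periodVal
        rw [hx', slashC_mem_Gamma0 f (inv_mem hγ) g₀]
      rw [this]
      exact Submodule.sum_mem _ fun i _ ↦
        Submodule.smul_mem _ _ (Submodule.subset_span ⟨(x, i), rfl⟩)
    · -- the generator `T`
      convert! Submodule.zero_mem _
      ext f
      rw [periodL_apply _ _ hq, periodVal_T]
      rfl
  | one =>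
    intro g₀ q hq _
    convert! Submodule.zero_mem _
    ext f
    rw [periodL_apply _ _ hq, periodVal_one]
    rfl
  | mul g h _ _ hg hh =>
    intro g₀ q hq hint
    convert! Submodule.add_mem _ (hg g₀ q hq hint)
      (hh (g₀ * g) _ (natDegree_slPoly_le g q) (intPoly_slPoly hint g)) using 1
    ext f
    rw [LinearMap.add_apply, periodL_apply _ _ hq, periodL_apply _ _ hq,
      periodL_apply _ _ (natDegree_slPoly_le g q), periodVal_mul f g₀ g h hq]
  | inv g _ hg =>
    intro g₀ q hq hint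
    convert! Submodule.neg_mem _
      (hg (g₀ * g⁻¹) _ (natDegree_slPoly_le g⁻¹ q) (intPoly_slPoly hint g⁻¹)) using 1
    ext f
    rw [LinearMap.neg_apply, periodL_apply _ _ hq, periodL_apply _ _ (natDegree_slPoly_le g⁻¹ q),
      eq_neg_iff_add_eq_zero, ← periodVal_mul f g₀ g⁻¹ g hq, inv_mul_cancel, periodVal_one]

/-- The lattice of periods based at `i∞`. -/
def periodLattice :
    Submodule ℤ (Module.Dual ℂ (CuspForm (CongruenceSubgroup.Gamma0 N) ((n : ℤ) + 2))) :=
  Submodule.span ℤ {φ | ∃ (g : SL(2, ℤ)) (q : ℂ[X]),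
    q.natDegree ≤ n ∧ IntPoly q ∧ φ = periodL N n 1 g q}

/-- The periods span a finitely generated subgroup of the dual of the space of cusp forms. -/
theorem periodLattice_fg : (periodLattice N n).FG := by
  refine Submodule.FG.of_le (Submodule.fg_span (maninGens_finite N n)) ?_
  rw [periodLattice, Submodule.span_le]
  rintro φ ⟨g, q, hq, hint, rfl⟩
  exact periodL_mem_span_maninGens N n 1 g hq hint

end Fermat.Agent.EichlerPeriods

end
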