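import Mathlib.NumberTheory.ModularForms.NormTrace
import Fermat.Agent.EichlerPeriods.Periods

/-!
# A cusp form all of whose periods vanish is zero

If the periods vanish, the `(n+1)`-fold primitive is a cusp form of weight `-n`, hence zero.
-/

set_option autoImplicit false

noncomputable section

namespace Fermat.Agent.EichlerPeriods

open Filter Topology Polynomial UpperHalfPlane
open scoped MatrixGroups ModularForm Manifold

variable {N : ℕ} {n : ℕ} [NeZero N]

/-- `τ`-value of the Eichler integral. -/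
def eichlerInt (n : ℕ) (f : ℍ → ℂ) (g : SL(2, ℤ)) (τ : ℍ) : ℂ :=
  primIter (slashC n f g) (n + 1) τ

theorem eichlerInt_slash (f : CuspForm (CongruenceSubgroup.Gamma0 N) ((n : ℤ) + 2))
    (hf : ∀ (h : SL(2, ℤ)) (q : ℂ[X]), q.natDegree ≤ n → periodVal n ⇑f 1 h q = 0)
    (γ : SL(2, ℤ)) : eichlerInt n ⇑f 1 ∣[-(n : ℤ)] γ = eichlerInt n ⇑f γ := by
  funext σ
  have hσ : (σ : ℂ) ∈ uhpSet := σ.im_pos
  set τ : ℂ := mob γ σ with hτ
  have hq : ((X - C τ) ^ n : ℂ[X]).natDegree ≤ n := by
    simp
  have h1 := periodVal_spec f 1 γ hq _ hσ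
  rw [hf γ _ hq, add_zero, one_mul, ← hτ, polyPrim_eval_self] at h1
  have hdet : (γ 0 0 : ℂ) * γ 1 1 - (γ 0 1 : ℂ) * γ 1 0 = 1 := by
    have := γ.det_coe
    rw [Matrix.det_fin_two] at this
    exact_mod_cast this
  set a : ℂ := (jFac γ σ)⁻¹ ^ n with ha
  -- the transformed polynomial
  have h2 : polyPrim n (slashC n ⇑f γ) (slPoly n γ ((X - C τ) ^ n)) σ =
      polyPrim n (slashC n ⇑f γ) (a • (X - C (σ : ℂ)) ^ n) σ := by
    refine polyPrim_unique n (decays_slashC f γ) ?_ (fun z hz ↦ ?_)
      (polyPrim_vertZero n (decays_slashC f γ) _) hσ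
    · refine (natDegree_smul_le _ _).trans ?_
      simp
    · convert! hasDerivAt_polyPrim n (decays_slashC f γ) (natDegree_slPoly_le γ _) hz using 1
      rw [eval_slPoly hq γ hz, eval_smul, eval_pow, eval_pow, smul_eq_mul, ha, ← mul_pow,
        ← mul_pow]
      simp only [eval_sub, eval_X, eval_C, hτ, mob, jFac]
      congr 2
      have h3 := jFac_ne_zero γ hσ
      have h4 := jFac_ne_zero γ hz
      simp only [jFac] at h3 h4
      field_simp
      linear_combination ((σ : ℂ) - z) * hdet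
  rw [h2, polyPrim_smul_poly, polyPrim_eval_self] at h1
  have hne : ((-1 : ℂ) ^ n * n.factorial) ≠ 0 :=
    mul_ne_zero (pow_ne_zero _ (by norm_num)) (by exact_mod_cast n.factorial_ne_zero)
  have h5 : primIter (slashC n ⇑f 1) (n + 1) τ = a * primIter (slashC n ⇑f γ) (n + 1) σ :=
    mul_left_cancel₀ hne (by rw [h1]; ring)
  rw [ModularForm.SL_slash_apply]
  simp only [eichlerInt, neg_neg, zpow_natCast]
  rw [coe_smul_eq_mob, ← hτ, h5, ha, inv_pow]
  have hd : UpperHalfPlane.denom (γ : GL (Fin 2) ℝ) σ = jFac γ σ := by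
    simp [UpperHalfPlane.denom, jFac]
  rw [hd]
  have := jFac_ne_zero γ hσ
  field_simp

theorem isZeroAtImInfty_eichlerInt (f : CuspForm (CongruenceSubgroup.Gamma0 N) ((n : ℤ) + 2))
    (g : SL(2, ℤ)) : IsZeroAtImInfty (eichlerInt n ⇑f g) := by
  obtain ⟨C, c, A, hc, hb⟩ := ((decays_slashC f g).primIter (n + 1)).bound
  have h0 : Tendsto (fun τ : ℍ ↦ C * Real.exp (-(c * τ.im))) atImInfty (𝓝 0) := by
    simpa [atImInfty] using (Real.tendsto_exp_atBot.comp
      (tendsto_neg_atTop_atBot.comp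
        ((tendsto_comap (f := UpperHalfPlane.im)).const_mul_atTop hc))).const_mul C
  refine squeeze_zero_norm' ?_ h0
  exact (atImInfty_mem _).mpr ⟨A, fun τ hτ ↦ hb τ hτ⟩

/-- Injectivity of the period map. -/
theorem eq_zero_of_forall_periodVal_eq_zero
    (f : CuspForm (CongruenceSubgroup.Gamma0 N) ((n : ℤ) + 2))
    (hf : ∀ (h : SL(2, ℤ)) (q : ℂ[X]), q.natDegree ≤ n → periodVal n ⇑f 1 h q = 0) : f = 0 := by
  let G : ModularForm (CongruenceSubgroup.Gamma0 N) (-(n : ℤ)) :=
    { toFun := eichlerInt n ⇑f 1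
      slash_action_eq' := by
        rintro _ ⟨γ, hγ, rfl⟩
        show eichlerInt n ⇑f 1 ∣[-(n : ℤ)] γ = _
        rw [eichlerInt_slash f hf]
        funext τ
        have := slashC_mem_Gamma0 f hγ 1
        rw [mul_one] at this
        simp only [eichlerInt, this]
      holo' := by
        rw [UpperHalfPlane.mdifferentiable_iff]
        refine ((decays_slashC f 1).primIter (n + 1)).diff.congr fun z hz ↦ ?_
        have hz' : 0 < z.im := hz
        simp [eichlerInt, UpperHalfPlane.ofComplex_apply_of_im_pos hz']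
      bdd_at_cusps' := by
        intro c hc
        rw [Subgroup.IsArithmetic.isCusp_iff_isCusp_SL2Z] at hc
        rw [OnePoint.isBoundedAt_iff_forall_SL2Z hc]
        intro γ _
        rw [eichlerInt_slash f hf]
        exact (isZeroAtImInfty_eichlerInt f γ).isBoundedAtImInfty }
  have hG : ∀ τ : ℍ, eichlerInt n ⇑f 1 τ = 0 := by
    intro τ
    rcases Nat.eq_zero_or_pos n with hn | hn
    · subst hn
      obtain ⟨c, hc⟩ := ModularForm.eq_const_of_weight_zero
        (𝒢 := (CongruenceSubgroup.Gamma0 N : Subgroup (GL (Fin 2) ℝ)))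
        { toFun := ⇑G
          slash_action_eq' := by simpa using! G.slash_action_eq'
          holo' := G.holo'
          bdd_at_cusps' := fun {c} hc => by simpa using! G.bdd_at_cusps' hc }
      have hc' : eichlerInt 0 ⇑f 1 = Function.const ℍ c := hc
      have h0 := isZeroAtImInfty_eichlerInt f 1
      rw [hc'] at h0
      have : c = 0 := tendsto_nhds_unique tendsto_const_nhds h0
      rw [hc', this]
      rfl
    · have := ModularForm.isZero_of_neg_weight (show -(n : ℤ) < 0 by omega) G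
      exact DFunLike.congr_fun this τ
  ext τ
  rw [← slashC_one_apply (n := n) (⇑f) τ]
  exact eq_zero_of_primIter_eq_zero (decays_slashC f 1) (n + 1)
    (fun z hz ↦ hG ⟨z, hz⟩) _ τ.im_pos

/-- A cusp form with vanishing periods is zero. -/
theorem eq_zero_of_forall_periodLattice (f : CuspForm (CongruenceSubgroup.Gamma0 N) ((n : ℤ) + 2))
    (hf : ∀ φ ∈ periodLattice N n, φ f = 0) : f = 0 := by
  refine eq_zero_of_forall_periodVal_eq_zero f fun h q hq ↦ ?_
  rw [periodVal_eq_sum_monomial f _ _ hq]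
  refine Finset.sum_eq_zero fun i hi ↦ ?_
  rw [Finset.mem_range] at hi
  have hd : ((X : ℂ[X]) ^ i).natDegree ≤ n := by simp; omega
  have := hf (periodL N n 1 h (X ^ i))
    (Submodule.subset_span ⟨h, X ^ i, hd, Subsemiring.pow_mem _ (X_mem_lifts _) i, rfl⟩)
  rw [periodL_apply _ _ hd] at this
  rw [this, mul_zero]

end Fermat.Agent.EichlerPeriods

end
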