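import Mathlib.NumberTheory.ModularForms.NormTrace
import Mathlib.RingTheory.Noetherian.Basic
import Fermat.Prelude.Def_CuspForm_HeckeAlgebra
import Fermat.Agent.EichlerPeriods.Injective
import Fermat.Agent.EichlerPeriods.Hecke

/-!
# The Hecke algebra is a finitely generated `ℤ`-module

The Hecke algebra of weight `k` and level `Γ₀(N)` embeds in the endomorphisms of the finitely
generated lattice of periods (`moduleFinite_heckeAlgebra`).
-/

set_option autoImplicit false

noncomputable section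

namespace Fermat.Agent.EichlerPeriods

open Filter Topology UpperHalfPlane
open scoped MatrixGroups ModularForm Manifold

variable {N : ℕ} [NeZero N]

theorem subsingleton_cuspForm_of_lt_two {k : ℤ} (hk : k < 2) :
    Subsingleton (CuspForm (CongruenceSubgroup.Gamma0 N) k) := by
  refine ⟨fun f g ↦ ?_⟩
  suffices ∀ f : CuspForm (CongruenceSubgroup.Gamma0 N) k, f = 0 by rw [this f, this g]
  intro f
  let F : ModularForm (CongruenceSubgroup.Gamma0 N) k := ModularFormClass.modularForm f
  have hF : ∀ τ, F τ = f τ := fun _ ↦ rfl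
  ext τ
  rcases lt_trichotomy k 0 with h | rfl | h
  · rw [← hF, ModularForm.isZero_of_neg_weight h F]
    rfl
  · obtain ⟨c, hc⟩ := ModularForm.eq_const_of_weight_zero F
    have hf : (⇑f : ℍ → ℂ) = Function.const ℍ c := hc
    have h0 : IsZeroAtImInfty (⇑f) := CuspFormClass.zero_at_infty f
    rw [hf] at h0
    rw [hf, tendsto_nhds_unique tendsto_const_nhds h0]
    rfl
  · obtain rfl : k = 1 := by omega
    have hneg : (-1 : GL (Fin 2) ℝ) ∈
        (CongruenceSubgroup.Gamma0 N : Subgroup (GL (Fin 2) ℝ)) := by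
      refine ⟨-1, ?_, ?_⟩
      · simp [CongruenceSubgroup.Gamma0_mem]
      · ext i j; fin_cases i <;> fin_cases j <;> simp
    rw [← hF, ModularForm.eq_zero_of_neg_one_mem hneg odd_one F]
    rfl

variable (N) (n : ℕ)

/-- Endomorphisms whose transpose preserves the period lattice. -/
def latticeStabilizer :
    Subalgebra ℤ (Module.End ℂ (CuspForm (CongruenceSubgroup.Gamma0 N) ((n : ℤ) + 2))) where
  carrier := {E | ∀ φ ∈ periodLattice N n, φ ∘ₗ E ∈ periodLattice N n}
  mul_mem' {E E'} hE hE' φ hφ := by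
    rw [Module.End.mul_eq_comp, ← LinearMap.comp_assoc]
    exact hE' _ (hE φ hφ)
  one_mem' φ hφ := by simpa [Module.End.one_eq_id] using hφ
  add_mem' {E E'} hE hE' φ hφ := by
    rw [LinearMap.comp_add]
    exact add_mem (hE φ hφ) (hE' φ hφ)
  zero_mem' φ _ := by simp
  algebraMap_mem' m φ hφ := by
    have : φ ∘ₗ (algebraMap ℤ (Module.End ℂ (CuspForm (CongruenceSubgroup.Gamma0 N)
        ((n : ℤ) + 2))) m) = m • φ := by
      ext f
      simp only [LinearMap.comp_apply, LinearMap.smul_apply, algebraMap_int_eq, eq_intCast,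
        Module.End.intCast_apply, map_zsmul]
    rw [this]
    exact Submodule.smul_mem _ m hφ

variable {N n}

theorem heckeGenerators_subset_latticeStabilizer (S : Set ℕ) :
    CuspForm.heckeGenerators N ((n : ℤ) + 2) S ⊆ latticeStabilizer N n := by
  rintro T (⟨p, hp, hpN, -, rfl⟩ | ⟨p, hpN, hp, -, rfl⟩) φ hφ
  · have hp0 : (p : ℂ) ≠ 0 := by exact_mod_cast hp.ne_zero
    refine comp_mem_periodLattice (ι := Option (Fin p))
      (fun i ↦ i.elim (p : ℤ) fun _ ↦ 1) (fun i ↦ i.elim 0 fun j ↦ (j : ℤ))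
      (fun i ↦ i.elim 1 fun _ ↦ (p : ℤ)) ?_ ?_ _ (fun f z hz ↦ ?_) hφ
    · rintro (_ | _) <;> simp [hp.pos]
    · rintro (_ | _) <;> simp [hp.pos]
    · obtain ⟨τ, rfl⟩ : ∃ τ : ℍ, (τ : ℂ) = z := ⟨⟨z, hz⟩, rfl⟩
      have h1 : ∀ j : Fin p, slashC n ⇑f 1 (triMap 1 (j : ℕ) p τ) =
          f (ModularForm.heckeMatrix p j • τ) := fun j ↦ by
        rw [← slashC_one_apply (n := n) (⇑f) (ModularForm.heckeMatrix p j • τ),
          ModularForm.coe_heckeMatrix_smul hp.ne_zero]
        simp [triMap]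
      have h2 : slashC n ⇑f 1 (triMap p 0 1 τ) = f (ModularForm.heckeDiagMatrix p • τ) := by
        rw [← slashC_one_apply (n := n) (⇑f) (ModularForm.heckeDiagMatrix p • τ),
          ModularForm.coe_heckeDiagMatrix_smul hp.ne_zero]
        simp [triMap]
      rw [slashC_one_apply, CuspForm.heckeTLin_apply_apply, ModularForm.heckeT_apply _ hp.ne_zero,
        Fintype.sum_option]
      simp only [Option.elim_none, Option.elim_some, h1, h2]
      rw [← Fin.sum_univ_eq_sum_range fun j ↦ f (ModularForm.heckeMatrix p j • τ), Finset.mul_sum,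
        add_comm, show (n : ℤ) + 2 - 1 = ((n + 1 : ℕ) : ℤ) by push_cast; ring, zpow_natCast]
      congr 1
      · simp
      · exact Finset.sum_congr rfl fun j _ ↦ by simp
  · refine comp_mem_periodLattice (ι := Fin p) (fun _ ↦ 1) (fun j ↦ (j : ℤ)) (fun _ ↦ (p : ℤ))
      (fun _ ↦ one_pos) (fun _ ↦ by simp [hp.pos]) _ (fun f z hz ↦ ?_) hφ
    obtain ⟨τ, rfl⟩ : ∃ τ : ℍ, (τ : ℂ) = z := ⟨⟨z, hz⟩, rfl⟩
    have h1 : ∀ j : Fin p, slashC n ⇑f 1 (triMap 1 (j : ℕ) p τ) =
        f (ModularForm.heckeMatrix p j • τ) := fun j ↦ by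
      rw [← slashC_one_apply (n := n) (⇑f) (ModularForm.heckeMatrix p j • τ),
        ModularForm.coe_heckeMatrix_smul hp.ne_zero]
      simp [triMap]
    rw [slashC_one_apply, CuspForm.heckeULin_apply_apply, ModularForm.heckeU_apply _ hp.ne_zero]
    simp only [h1]
    rw [← Fin.sum_univ_eq_sum_range fun j ↦ f (ModularForm.heckeMatrix p j • τ), Finset.mul_sum]
    exact Finset.sum_congr rfl fun j _ ↦ by simp

theorem moduleFinite_heckeAlgebra_two_add (S : Set ℕ) :
    Module.Finite ℤ (CuspForm.heckeAlgebra N ((n : ℤ) + 2) S) := by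
  have hle : CuspForm.heckeAlgebra N ((n : ℤ) + 2) S ≤ latticeStabilizer N n :=
    Algebra.adjoin_le (heckeGenerators_subset_latticeStabilizer S)
  have : Module.Finite ℤ (periodLattice N n) := Module.Finite.iff_fg.mpr (periodLattice_fg N n)
  have : Module.IsTorsionFree ℤ
      (Module.Dual ℂ (CuspForm (CongruenceSubgroup.Gamma0 N) ((n : ℤ) + 2))) :=
    Module.IsTorsionFree.trans_faithfulSMul ℤ ℂ _
  have : Module.Free ℤ (periodLattice N n) := Module.free_of_finite_type_torsion_free'
  let R : CuspForm.heckeAlgebra N ((n : ℤ) + 2) S →ₗ[ℤ]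
      (periodLattice N n →ₗ[ℤ] periodLattice N n) :=
    { toFun := fun t ↦
        { toFun := fun φ ↦ ⟨(φ : Module.Dual ℂ _) ∘ₗ (t : Module.End ℂ _), hle t.2 _ φ.2⟩
          map_add' := fun φ ψ ↦ Subtype.ext (by simp [LinearMap.add_comp])
          map_smul' := fun m φ ↦ Subtype.ext (by simp [LinearMap.smul_comp]) }
      map_add' := fun t t' ↦ by
        refine LinearMap.ext fun φ ↦ Subtype.ext ?_
        simp [LinearMap.comp_add]
      map_smul' := fun m t ↦ by
        refine LinearMap.ext fun φ ↦ Subtype.ext ?_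
        ext f
        simp [map_zsmul] }
  refine Module.Finite.of_injective R fun t t' h ↦ ?_
  refine Subtype.ext (LinearMap.ext fun f ↦ sub_eq_zero.mp ?_)
  refine eq_zero_of_forall_periodLattice _ fun φ hφ ↦ ?_
  have h1 := congrArg Subtype.val (LinearMap.congr_fun h ⟨φ, hφ⟩)
  have h2 := LinearMap.congr_fun h1 f
  rw [map_sub, sub_eq_zero]
  exact h2

/-- The Hecke algebra of any weight and level `Γ₀(N)` is a finite `ℤ`-module. -/
theorem moduleFinite_heckeAlgebra (k : ℤ) (S : Set ℕ) :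
    Module.Finite ℤ (CuspForm.heckeAlgebra N k S) := by
  rcases lt_or_ge k 2 with h | h
  · have := subsingleton_cuspForm_of_lt_two (N := N) h
    have : Subsingleton (CuspForm.heckeAlgebra N k S) :=
      ⟨fun a b ↦ Subtype.ext (LinearMap.ext fun f ↦ Subsingleton.elim _ _)⟩
    exact Module.Finite.of_finite
  · obtain ⟨n, rfl⟩ : ∃ n : ℕ, k = (n : ℤ) + 2 := ⟨(k - 2).toNat, by omega⟩
    exact moduleFinite_heckeAlgebra_two_add S

end Fermat.Agent.EichlerPeriods

end
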